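import Fermat.Agent.S12.Line.Gen
import Fermat.Agent.S05.XOnly

/-!
# S12 ⇐ S15, block BK: the three rational points of order `2` of the Frey curve

`T1 = (0, 0)`, `T2 = (a^p/4, -a^p/8)`, `T3 = (-b^p/4, b^p/8)`.
-/

set_option autoImplicit false

open WeierstrassCurve WeierstrassCurve.Affine WeierstrassCurve.Affine.Point

namespace Fermat.Agent.S12

open Fermat.Agent.S13 (EPt Vp GQ M0)
open Fermat.Agent.S05.XOnly (xc yc)

local notation "Qbar" => AlgebraicClosure ℚ

theorem M0_X_eq_xc (P : FreyPackage) (T : EPt P) : (M0 P).X T = xc T := by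
  rcases T with _ | ⟨x, y, h⟩
  · rfl
  · rw [S13.M0_X, S13.ptX_some, sub_zero]; rfl

theorem M0_Y_eq_yc (P : FreyPackage) (T : EPt P) : (M0 P).Y T = yc T := by
  rcases T with _ | ⟨x, y, h⟩
  · rfl
  · rw [S13.M0_Y, S13.ptY_some, sub_zero]; rfl

theorem xc_smul (P : FreyPackage) (σ : GQ) (T : EPt P) : xc (σ • T) = σ (xc T) := by
  rw [← M0_X_eq_xc, ← M0_X_eq_xc, S13.M0_X_smul]

theorem yc_smul (P : FreyPackage) (σ : GQ) (T : EPt P) : yc (σ • T) = σ (yc T) := by
  rw [← M0_Y_eq_yc, ← M0_Y_eq_yc, S13.M0_Y_smul]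

theorem smul_add_pt (P : FreyPackage) (σ : GQ) (S T : EPt P) : σ • (S + T) = σ • S + σ • T :=
  (S13.actE P σ).map_add S T

/-- `a^p` in `ℚ̄`. -/
noncomputable def cA (P : FreyPackage) : Qbar := (P.a : Qbar) ^ P.p
/-- `b^p` in `ℚ̄`. -/
noncomputable def cB (P : FreyPackage) : Qbar := (P.b : Qbar) ^ P.p
/-- `c^p` in `ℚ̄`. -/
noncomputable def cC (P : FreyPackage) : Qbar := (P.c : Qbar) ^ P.p

theorem cA_add_cB (P : FreyPackage) : cA P + cB P = cC P := S13.cast_hFLT P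

theorem cA_ne_zero (P : FreyPackage) : cA P ≠ 0 := pow_ne_zero _ (Int.cast_ne_zero.2 P.ha0)
theorem cB_ne_zero (P : FreyPackage) : cB P ≠ 0 := pow_ne_zero _ (Int.cast_ne_zero.2 P.hb0)
theorem cC_ne_zero (P : FreyPackage) : cC P ≠ 0 := pow_ne_zero _ (Int.cast_ne_zero.2 P.hc0)

theorem map_cA (P : FreyPackage) (σ : GQ) : σ (cA P) = cA P := by
  rw [cA, map_pow, map_intCast]
theorem map_cB (P : FreyPackage) (σ : GQ) : σ (cB P) = cB P := by
  rw [cB, map_pow, map_intCast]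

/-- the equation of the Frey curve for a point with `2 y + x = 0`. -/
theorem two_eqn_iff (P : FreyPackage) (x : Qbar) :
    (-x / 2) ^ 2 + ((1 : ℤ) : Qbar) * x * (-x / 2) =
        x ^ 3 + ((S13.a₂Z P : ℤ) : Qbar) * x ^ 2 + ((S13.a₄Z P : ℤ) : Qbar) * x ↔
      x * (x - cA P / 4) * (x + cB P / 4) = 0 := by
  rw [S13.cast_a₂Z, S13.cast_a₄Z, cA, cB]
  push_cast
  constructor
  · intro h
    linear_combination -h
  · intro h
    linear_combination -h

theorem exists_two (P : FreyPackage) (x : Qbar) (hx : x * (x - cA P / 4) * (x + cB P / 4) = 0) :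
    ∃ T : EPt P, T ≠ 0 ∧ xc T = x ∧ yc T = -x / 2 := by
  obtain ⟨T, h0, hX, hY⟩ := (M0 P).exists_point x (-x / 2) ((two_eqn_iff P x).2 hx)
  exact ⟨T, h0, by rw [← M0_X_eq_xc, hX], by rw [← M0_Y_eq_yc, hY]⟩

/-- `(0, 0)` -/
noncomputable def T1 (P : FreyPackage) : EPt P := Classical.choose (exists_two P 0 (by ring))
/-- `(a^p / 4, - a^p / 8)` -/
noncomputable def T2 (P : FreyPackage) : EPt P :=
  Classical.choose (exists_two P (cA P / 4) (by ring))
/-- `(- b^p / 4, b^p / 8)` -/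
noncomputable def T3 (P : FreyPackage) : EPt P :=
  Classical.choose (exists_two P (-cB P / 4) (by ring))

theorem T1_ne_zero (P : FreyPackage) : T1 P ≠ 0 :=
  (Classical.choose_spec (exists_two P 0 (by ring))).1
theorem T2_ne_zero (P : FreyPackage) : T2 P ≠ 0 :=
  (Classical.choose_spec (exists_two P (cA P / 4) (by ring))).1
theorem T3_ne_zero (P : FreyPackage) : T3 P ≠ 0 :=
  (Classical.choose_spec (exists_two P (-cB P / 4) (by ring))).1

theorem xc_T1 (P : FreyPackage) : xc (T1 P) = 0 :=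
  (Classical.choose_spec (exists_two P 0 (by ring))).2.1
theorem xc_T2 (P : FreyPackage) : xc (T2 P) = cA P / 4 :=
  (Classical.choose_spec (exists_two P (cA P / 4) (by ring))).2.1
theorem xc_T3 (P : FreyPackage) : xc (T3 P) = -cB P / 4 :=
  (Classical.choose_spec (exists_two P (-cB P / 4) (by ring))).2.1

theorem yc_T1 (P : FreyPackage) : yc (T1 P) = 0 :=
  (Classical.choose_spec (exists_two P 0 (by ring))).2.2.trans (by ring)
theorem yc_T2 (P : FreyPackage) : yc (T2 P) = -cA P / 8 :=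
  (Classical.choose_spec (exists_two P (cA P / 4) (by ring))).2.2.trans (by ring)
theorem yc_T3 (P : FreyPackage) : yc (T3 P) = cB P / 8 :=
  (Classical.choose_spec (exists_two P (-cB P / 4) (by ring))).2.2.trans (by ring)

/-- the criterion for `2`-torsion on the Frey curve. -/
theorem two_nsmul_eq_zero_iff (P : FreyPackage) {T : EPt P} (hT : T ≠ 0) :
    2 • T = 0 ↔ 2 * yc T + xc T = 0 := by
  rw [S05.XOnly.two_nsmul_eq_zero_iff hT, S13.frey_a₁, S13.frey_a₃]
  push_cast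
  rw [one_mul, add_zero]

theorem two_nsmul_T1 (P : FreyPackage) : 2 • T1 P = 0 := by
  rw [two_nsmul_eq_zero_iff P (T1_ne_zero P), xc_T1, yc_T1]; ring
theorem two_nsmul_T2 (P : FreyPackage) : 2 • T2 P = 0 := by
  rw [two_nsmul_eq_zero_iff P (T2_ne_zero P), xc_T2, yc_T2]; ring
theorem two_nsmul_T3 (P : FreyPackage) : 2 • T3 P = 0 := by
  rw [two_nsmul_eq_zero_iff P (T3_ne_zero P), xc_T3, yc_T3]; ring

/-- two points of order `2` with the same abscissa are equal. -/
theorem eq_of_two_of_xc_eq (P : FreyPackage) {S T : EPt P} (hS : S ≠ 0) (hT : T ≠ 0)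
    (hS2 : 2 • S = 0) (hT2 : 2 • T = 0) (h : xc S = xc T) : S = T := by
  rw [two_nsmul_eq_zero_iff P hS] at hS2
  rw [two_nsmul_eq_zero_iff P hT] at hT2
  refine S05.XOnly.ext_xc_yc hS hT h ?_
  have h2 : (2 : Qbar) ≠ 0 := two_ne_zero
  apply mul_left_cancel₀ h2
  linear_combination hS2 - hT2 - h

/-- classification of the points of order `2`. -/
theorem eq_T_of_two (P : FreyPackage) {S : EPt P} (hS : S ≠ 0) (hS2 : 2 • S = 0) :
    S = T1 P ∨ S = T2 P ∨ S = T3 P := by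
  have h2 := (two_nsmul_eq_zero_iff P hS).1 hS2
  have hy : yc S = -xc S / 2 := by
    have h2' : (2 : Qbar) ≠ 0 := two_ne_zero
    field_simp
    linear_combination h2
  have heq := (M0 P).eqn S hS
  rw [M0_X_eq_xc, M0_Y_eq_yc, hy, two_eqn_iff] at heq
  rcases mul_eq_zero.1 heq with h | h
  · rcases mul_eq_zero.1 h with h | h
    · exact Or.inl (eq_of_two_of_xc_eq P hS (T1_ne_zero P) hS2 (two_nsmul_T1 P)
        (by rw [xc_T1, h]))
    · exact Or.inr (Or.inl (eq_of_two_of_xc_eq P hS (T2_ne_zero P) hS2 (two_nsmul_T2 P)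
        (by rw [xc_T2]; linear_combination h)))
  · exact Or.inr (Or.inr (eq_of_two_of_xc_eq P hS (T3_ne_zero P) hS2 (two_nsmul_T3 P)
      (by rw [xc_T3]; linear_combination h)))

theorem T1_ne_T2 (P : FreyPackage) : T1 P ≠ T2 P := by
  intro h
  have := congrArg xc h
  rw [xc_T1, xc_T2] at this
  exact cA_ne_zero P (by linear_combination (-4 : Qbar) * this)

theorem T1_ne_T3 (P : FreyPackage) : T1 P ≠ T3 P := by
  intro h
  have := congrArg xc h
  rw [xc_T1, xc_T3] at this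
  exact cB_ne_zero P (by linear_combination (4 : Qbar) * this)

theorem T2_ne_T3 (P : FreyPackage) : T2 P ≠ T3 P := by
  intro h
  have := congrArg xc h
  rw [xc_T2, xc_T3] at this
  exact cC_ne_zero P (by rw [← cA_add_cB]; linear_combination (4 : Qbar) * this)

theorem T1_add_T2 (P : FreyPackage) : T1 P + T2 P = T3 P := by
  have h2 : 2 • (T1 P + T2 P) = 0 := by rw [nsmul_add, two_nsmul_T1, two_nsmul_T2, add_zero]
  have h0 : T1 P + T2 P ≠ 0 := by
    intro h
    apply T1_ne_T2 P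
    have e : T2 P + T2 P = 0 := by rw [← two_nsmul]; exact two_nsmul_T2 P
    exact add_right_cancel (h.trans e.symm)
  rcases eq_T_of_two P h0 h2 with h | h | h
  · exact absurd (by simpa using h) (T2_ne_zero P)
  · exact absurd (by simpa using h) (T1_ne_zero P)
  · exact h

theorem T1_add_T3 (P : FreyPackage) : T1 P + T3 P = T2 P := by
  rw [← T1_add_T2, ← add_assoc, ← two_nsmul, two_nsmul_T1, zero_add]

theorem T2_add_T3 (P : FreyPackage) : T2 P + T3 P = T1 P := by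
  rw [← T1_add_T2, add_left_comm, ← two_nsmul, two_nsmul_T2, add_zero]

/-- a point with rational coordinates is Galois fixed. -/
theorem smul_eq_of_fixed (P : FreyPackage) (σ : GQ) {T : EPt P} (hT : T ≠ 0)
    (hx : σ (xc T) = xc T) (hy : σ (yc T) = yc T) : σ • T = T :=
  S05.XOnly.ext_xc_yc (S13.smul_ne_zero σ hT) hT (by rw [xc_smul, hx]) (by rw [yc_smul, hy])

theorem smul_T1 (P : FreyPackage) (σ : GQ) : σ • T1 P = T1 P :=
  smul_eq_of_fixed P σ (T1_ne_zero P) (by rw [xc_T1, _root_.map_zero]) (by rw [yc_T1, _root_.map_zero])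

theorem smul_T2 (P : FreyPackage) (σ : GQ) : σ • T2 P = T2 P :=
  smul_eq_of_fixed P σ (T2_ne_zero P) (by rw [xc_T2, map_div₀, map_cA, map_ofNat])
    (by rw [yc_T2, map_div₀, map_neg, map_cA, map_ofNat])

theorem smul_T3 (P : FreyPackage) (σ : GQ) : σ • T3 P = T3 P :=
  smul_eq_of_fixed P σ (T3_ne_zero P) (by rw [xc_T3, map_div₀, map_neg, map_cB, map_ofNat])
    (by rw [yc_T3, map_div₀, map_cB, map_ofNat])

namespace IsLine

variable {P : FreyPackage} {C : AddSubgroup (EPt P)}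

/-- a point of order `2` is not on the line. -/
theorem notMem_of_two (hC : IsLine P C) {T : EPt P} (hT : T ≠ 0) (hT2 : 2 • T = 0) : T ∉ C :=
  fun h => hT (hC.eq_zero_of_two_nsmul h hT2)

theorem add_notMem_of_two (hC : IsLine P C) {T K : EPt P} (hT : T ≠ 0) (hT2 : 2 • T = 0)
    (hK : K ∈ C) : T + K ∉ C := fun h =>
  hC.notMem_of_two hT hT2 (by simpa using C.sub_mem h hK)

theorem add_ne_zero_of_two (hC : IsLine P C) {T K : EPt P} (hT : T ≠ 0) (hT2 : 2 • T = 0)
    (hK : K ∈ C) : T + K ≠ 0 := fun h =>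
  hC.add_notMem_of_two hT hT2 hK (h ▸ C.zero_mem)

/-- `x_K ≠ e` for a nonzero point of the line and the abscissa `e` of a point of order `2`. -/
theorem xc_ne_of_two (hC : IsLine P C) {T K : EPt P} (hT : T ≠ 0) (hT2 : 2 • T = 0)
    (hK : K ∈ nz C) : xc K ≠ xc T := by
  intro h
  rcases S05.XOnly.eq_or_eq_neg_of_xc_eq (hC.ne_zero_of_mem_nz hK) hT h with h1 | h1
  · exact hC.notMem_of_two hT hT2 (h1 ▸ hC.mem_of_mem_nz hK)
  · refine hC.notMem_of_two hT hT2 ?_
    have := C.neg_mem (hC.mem_of_mem_nz hK)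
    rwa [h1, neg_neg] at this

/-- **BK2.** `g(T) = ∏_{K ∈ C ∖ 0} (x_K - x_T)` is a nonzero rational number for a rational point
`T` of order `2`. -/
theorem exists_rat_g (hC : IsLine P C) {T : EPt P} (hT : T ≠ 0) (hT2 : 2 • T = 0)
    (hfix : ∀ σ : GQ, σ • T = T) :
    ∃ q : ℚ, q ≠ 0 ∧ algebraMap ℚ Qbar q = ∏ K ∈ nz C, (xc K - xc T) := by
  obtain ⟨q, hq⟩ := hC.exists_rat_prod (fun K => xc K - xc T) (fun σ K _ => by
    rw [map_sub, ← xc_smul, ← xc_smul, hfix])
  refine ⟨q, ?_, hq⟩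
  rintro rfl
  rw [_root_.map_zero] at hq
  obtain ⟨K, hK, h0⟩ := Finset.prod_eq_zero_iff.1 hq.symm
  exact hC.xc_ne_of_two hT hT2 hK (sub_eq_zero.1 h0)

/-- **BK2.** `∑_{K ∈ C ∖ 0} (x(T + K) - x(T' + K))` is rational for rational points `T, T'`. -/
theorem exists_rat_d (hC : IsLine P C) {T T' : EPt P} (hfix : ∀ σ : GQ, σ • T = T)
    (hfix' : ∀ σ : GQ, σ • T' = T') :
    ∃ q : ℚ, algebraMap ℚ Qbar q = ∑ K ∈ nz C, (xc (T + K) - xc (T' + K)) :=
  hC.exists_rat_sum (fun K => xc (T + K) - xc (T' + K)) (fun σ K _ => by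
    rw [map_sub, ← xc_smul, ← xc_smul, smul_add_pt, smul_add_pt, hfix, hfix'])

end IsLine

end Fermat.Agent.S12
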