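import Fermat.Prelude.Def_FLTPrelim_CofixedLine
import Fermat.Agent.S13.FreyNewton

/-!
# S12 ⇐ S15, block BK (bookkeeping): the cofixed line as a finite subgroup of `E(ℚ̄)`

`IsLine P C` : `C` is a subgroup of order `p` of the group `EPt P` of `ℚ̄`-points of the Frey curve,
killed by `p`, Galois stable, such that Galois acts trivially on `E[p] / C`.
`nz C` is the finset of its nonzero elements; Galois equivariant sums and products over `nz C`
are rational numbers.
-/

set_option autoImplicit false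

open WeierstrassCurve WeierstrassCurve.Affine WeierstrassCurve.Affine.Point

namespace Fermat.Agent.S12

open Fermat.Agent.S13 (EPt Vp GQ M0)

local notation "Qbar" => AlgebraicClosure ℚ

/-- a Galois stable subgroup of order `p` of the Frey curve with trivial action on `E[p] / C`. -/
structure IsLine (P : FreyPackage) (C : AddSubgroup (EPt P)) : Prop where
  card : Nat.card C = P.p
  tors : ∀ T : EPt P, T ∈ C → P.p • T = 0
  stable : ∀ (σ : GQ) (T : EPt P), T ∈ C → σ • T ∈ C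
  cofixed : ∀ (σ : GQ) (R : EPt P), P.p • R = 0 → σ • R - R ∈ C
  exists_notMem : ∃ R : EPt P, P.p • R = 0 ∧ R ∉ C

/-- the subgroup of `E(ℚ̄)` underlying a subspace of `E[p]`. -/
noncomputable def lineOf (P : FreyPackage) (N : Submodule (ZMod P.p) (Vp P)) : AddSubgroup (EPt P) :=
  N.toAddSubgroup.map (Submodule.torsionBy ℤ (EPt P) P.p).subtype.toAddMonoidHom

theorem mem_lineOf {P : FreyPackage} {N : Submodule (ZMod P.p) (Vp P)} {T : EPt P} :
    T ∈ lineOf P N ↔ ∃ x : Vp P, x ∈ N ∧ (x : EPt P) = T := by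
  simp only [lineOf, AddSubgroup.mem_map]
  rfl

theorem card_lineOf (P : FreyPackage) (N : Submodule (ZMod P.p) (Vp P)) :
    Nat.card (lineOf P N) = Nat.card N := by
  refine (Nat.card_congr (Equiv.ofBijective
    (fun x : N => (⟨((x : Vp P) : EPt P), mem_lineOf.2 ⟨x, x.2, rfl⟩⟩ : lineOf P N)) ⟨?_, ?_⟩)).symm
  · intro x y h
    have h' : ((x : Vp P) : EPt P) = ((y : Vp P) : EPt P) := by
      simpa using congrArg (fun z : lineOf P N => (z : EPt P)) h
    exact Subtype.ext (Subtype.ext h')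
  · rintro ⟨T, hT⟩
    obtain ⟨x, hx, rfl⟩ := mem_lineOf.1 hT
    exact ⟨⟨x, hx⟩, rfl⟩

/-- **BK1.** -/
theorem exists_isLine (P : FreyPackage)
    (h : HasGaloisStableCofixedLine (K := AlgebraicClosure ℚ) ℚ P.freyCurve P.p) :
    ∃ C : AddSubgroup (EPt P), IsLine P C := by
  obtain ⟨N, hN, hbot, htop, hco⟩ := h
  refine ⟨lineOf P N, ?_, ?_, ?_, ?_, ?_⟩
  · rw [card_lineOf]
    exact S13.FreyNewton.card_line P N hbot htop
  · intro T hT
    obtain ⟨x, -, rfl⟩ := mem_lineOf.1 hT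
    exact S13.nsmul_eq_zero_of_mem P x
  · intro σ T hT
    obtain ⟨x, hx, rfl⟩ := mem_lineOf.1 hT
    exact mem_lineOf.2 ⟨σ • x, hN σ x hx, rfl⟩
  · intro σ R hR
    exact mem_lineOf.2 ⟨_, hco σ ⟨R, S13.mem_Vp_of_nsmul P hR⟩, rfl⟩
  · by_contra hcon
    push Not at hcon
    apply htop
    rw [eq_top_iff]
    intro x _
    obtain ⟨y, hy, hyx⟩ := mem_lineOf.1 (hcon x (S13.nsmul_eq_zero_of_mem P x))
    rwa [← Subtype.ext hyx]

/-! ## The finset of nonzero elements -/

open Classical in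
/-- the nonzero elements of a (finite) subgroup. -/
noncomputable def nz {G : Type*} [AddGroup G] (C : AddSubgroup G) : Finset G :=
  if h : (C : Set G).Finite then h.toFinset.filter (fun T => T ≠ 0) else ∅

namespace IsLine

variable {P : FreyPackage} {C : AddSubgroup (EPt P)}

theorem finite (hC : IsLine P C) : (C : Set (EPt P)).Finite := by
  have h : Finite C := Nat.finite_of_card_ne_zero (by rw [hC.card]; exact P.hp0)
  exact Set.toFinite _

theorem mem_nz (hC : IsLine P C) {T : EPt P} : T ∈ nz C ↔ T ∈ C ∧ T ≠ 0 := by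
  unfold nz
  rw [dif_pos hC.finite]
  simp only [Finset.mem_filter, Set.Finite.mem_toFinset, SetLike.mem_coe]

theorem card_nz (hC : IsLine P C) : (nz C).card = P.p - 1 := by
  classical
  have h1 : nz C = hC.finite.toFinset.erase 0 := by
    ext T
    rw [hC.mem_nz, Finset.mem_erase, Set.Finite.mem_toFinset, SetLike.mem_coe, and_comm]
  rw [h1, Finset.card_erase_of_mem (by rw [Set.Finite.mem_toFinset]; exact C.zero_mem), ← hC.card]
  congr 1
  rw [← Set.ncard_eq_toFinset_card _ hC.finite]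
  rfl

theorem ne_zero_of_mem_nz (hC : IsLine P C) {T : EPt P} (hT : T ∈ nz C) : T ≠ 0 :=
  (hC.mem_nz.1 hT).2

theorem mem_of_mem_nz (hC : IsLine P C) {T : EPt P} (hT : T ∈ nz C) : T ∈ C :=
  (hC.mem_nz.1 hT).1

theorem smul_mem_nz (hC : IsLine P C) (σ : GQ) {T : EPt P} (hT : T ∈ nz C) : σ • T ∈ nz C := by
  rw [hC.mem_nz] at hT ⊢
  exact ⟨hC.stable σ T hT.1, S13.smul_ne_zero σ hT.2⟩

theorem neg_mem_nz (hC : IsLine P C) {T : EPt P} (hT : T ∈ nz C) : -T ∈ nz C := by
  rw [hC.mem_nz] at hT ⊢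
  exact ⟨C.neg_mem hT.1, neg_ne_zero.2 hT.2⟩

/-- Galois permutes `nz C`: equivariant products are invariant. -/
theorem map_prod_nz (hC : IsLine P C) (F : EPt P → Qbar)
    (hF : ∀ (σ : GQ) (T : EPt P), T ∈ nz C → F (σ • T) = σ (F T)) (σ : GQ) :
    σ (∏ K ∈ nz C, F K) = ∏ K ∈ nz C, F K := by
  rw [map_prod]
  refine Finset.prod_nbij' (fun T => σ • T) (fun T => σ⁻¹ • T) (fun T hT => hC.smul_mem_nz σ hT)
    (fun T hT => hC.smul_mem_nz σ⁻¹ hT) (fun T _ => inv_smul_smul σ T)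
    (fun T _ => smul_inv_smul σ T) (fun T hT => (hF σ T hT).symm)

theorem map_sum_nz (hC : IsLine P C) (F : EPt P → Qbar)
    (hF : ∀ (σ : GQ) (T : EPt P), T ∈ nz C → F (σ • T) = σ (F T)) (σ : GQ) :
    σ (∑ K ∈ nz C, F K) = ∑ K ∈ nz C, F K := by
  rw [map_sum]
  refine Finset.sum_nbij' (fun T => σ • T) (fun T => σ⁻¹ • T) (fun T hT => hC.smul_mem_nz σ hT)
    (fun T hT => hC.smul_mem_nz σ⁻¹ hT) (fun T _ => inv_smul_smul σ T)
    (fun T _ => smul_inv_smul σ T) (fun T hT => (hF σ T hT).symm)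

/-- **BK2.** equivariant products over the nonzero points of the line are rational. -/
theorem exists_rat_prod (hC : IsLine P C) (F : EPt P → Qbar)
    (hF : ∀ (σ : GQ) (T : EPt P), T ∈ nz C → F (σ • T) = σ (F T)) :
    ∃ q : ℚ, algebraMap ℚ Qbar q = ∏ K ∈ nz C, F K :=
  S13.exists_rat_of_fixed _ (hC.map_prod_nz F hF)

/-- **BK2.** equivariant sums over the nonzero points of the line are rational. -/
theorem exists_rat_sum (hC : IsLine P C) (F : EPt P → Qbar)
    (hF : ∀ (σ : GQ) (T : EPt P), T ∈ nz C → F (σ • T) = σ (F T)) :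
    ∃ q : ℚ, algebraMap ℚ Qbar q = ∑ K ∈ nz C, F K :=
  S13.exists_rat_of_fixed _ (hC.map_sum_nz F hF)

/-- an element of the line killed by `2` is zero. -/
theorem eq_zero_of_two_nsmul (hC : IsLine P C) {T : EPt P} (hT : T ∈ C) (h2 : 2 • T = 0) :
    T = 0 := by
  obtain ⟨k, hk⟩ := P.hp_odd
  have h := hC.tors T hT
  rw [hk, add_nsmul, mul_nsmul, one_nsmul, h2, nsmul_zero, zero_add] at h
  exact h

/-- every nonzero element generates the line. -/
theorem exists_nsmul_eq (hC : IsLine P C) {T K : EPt P} (hT : T ∈ nz C) (hK : K ∈ C) :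
    ∃ k : ℕ, k < P.p ∧ k • T = K := by
  have : Fact P.p.Prime := ⟨P.pp⟩
  have hT' := hC.mem_nz.1 hT
  have h1 : (⟨K, hK⟩ : C) ∈ AddSubgroup.zmultiples (⟨T, hT'.1⟩ : C) :=
    mem_zmultiples_of_prime_card hC.card (fun h => hT'.2 (congrArg Subtype.val h))
  obtain ⟨m, hm⟩ := AddSubgroup.mem_zmultiples_iff.1 h1
  have hm' : m • T = K := congrArg Subtype.val hm
  have hp : (0 : ℤ) < P.p := by exact_mod_cast P.hppos
  refine ⟨(m % P.p).toNat, ?_, ?_⟩
  · have := Int.emod_lt_of_pos m hp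
    have h0 := Int.emod_nonneg m hp.ne'
    omega
  · rw [← hm', ← natCast_zsmul, Int.toNat_of_nonneg (Int.emod_nonneg m hp.ne')]
    conv_rhs => rw [← Int.emod_add_mul_ediv m P.p]
    rw [add_zsmul, mul_comm, mul_zsmul, natCast_zsmul, hC.tors T hT'.1, zsmul_zero, add_zero]

end IsLine

end Fermat.Agent.S12
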