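import Fermat.Agent.S12.Line.Basic

/-!
# S12 ⇐ S15, block BK: a generator of the line

`C = zmultiples K₀` for every nonzero `K₀ ∈ C`, and sums / products over `nz C` are sums / products
over `i • K₀`, `i ∈ Finset.Ico 1 p` (the indexing used by `Lib/Unif/Velu`).
-/

set_option autoImplicit false

open WeierstrassCurve WeierstrassCurve.Affine WeierstrassCurve.Affine.Point

namespace Fermat.Agent.S12

open Fermat.Agent.S13 (EPt Vp GQ M0)

local notation "Qbar" => AlgebraicClosure ℚ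

namespace IsLine

variable {P : FreyPackage} {C : AddSubgroup (EPt P)}

theorem nz_nonempty (hC : IsLine P C) : (nz C).Nonempty := by
  rw [← Finset.card_pos, hC.card_nz]
  have := P.hp5
  omega

theorem exists_mem_nz (hC : IsLine P C) : ∃ K₀ : EPt P, K₀ ∈ nz C := hC.nz_nonempty

theorem addOrderOf_eq (hC : IsLine P C) {K₀ : EPt P} (hK : K₀ ∈ nz C) : addOrderOf K₀ = P.p := by
  have : Fact P.p.Prime := ⟨P.pp⟩
  exact addOrderOf_eq_prime (hC.tors K₀ (hC.mem_of_mem_nz hK)) (hC.ne_zero_of_mem_nz hK)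

theorem zmultiples_eq (hC : IsLine P C) {K₀ : EPt P} (hK : K₀ ∈ nz C) :
    AddSubgroup.zmultiples K₀ = C := by
  apply le_antisymm
  · rw [AddSubgroup.zmultiples_le]
    exact hC.mem_of_mem_nz hK
  · intro T hT
    obtain ⟨k, -, rfl⟩ := hC.exists_nsmul_eq hK hT
    exact AddSubgroup.nsmul_mem_zmultiples K₀ k

theorem nsmul_mem_nz (hC : IsLine P C) {K₀ : EPt P} (hK : K₀ ∈ nz C) {i : ℕ}
    (hi : i ∈ Finset.Ico 1 P.p) : i • K₀ ∈ nz C := by
  rw [hC.mem_nz]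
  refine ⟨C.nsmul_mem (hC.mem_of_mem_nz hK) i, fun h => ?_⟩
  have h1 := addOrderOf_dvd_of_nsmul_eq_zero h
  rw [hC.addOrderOf_eq hK] at h1
  have h2 := Nat.le_of_dvd (Finset.mem_Ico.1 hi).1 h1
  have := (Finset.mem_Ico.1 hi).2
  omega

theorem nsmul_ne_zero (hC : IsLine P C) {K₀ : EPt P} (hK : K₀ ∈ nz C) {i : ℕ}
    (hi : i ∈ Finset.Ico 1 P.p) : i • K₀ ≠ 0 :=
  hC.ne_zero_of_mem_nz (hC.nsmul_mem_nz hK hi)

theorem nsmul_injOn (hC : IsLine P C) {K₀ : EPt P} (hK : K₀ ∈ nz C) :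
    Set.InjOn (fun i : ℕ => i • K₀) (Finset.Ico 1 P.p : Finset ℕ) := by
  intro i hi j hj hij
  have h := nsmul_injOn_Iio_addOrderOf (x := K₀)
  rw [hC.addOrderOf_eq hK] at h
  exact h (Finset.mem_Ico.1 (Finset.mem_coe.1 hi)).2 (Finset.mem_Ico.1 (Finset.mem_coe.1 hj)).2 hij

theorem exists_Ico_nsmul_eq (hC : IsLine P C) {K₀ K : EPt P} (hK₀ : K₀ ∈ nz C) (hK : K ∈ nz C) :
    ∃ i ∈ Finset.Ico 1 P.p, i • K₀ = K := by
  obtain ⟨k, hk, rfl⟩ := hC.exists_nsmul_eq hK₀ (hC.mem_of_mem_nz hK)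
  refine ⟨k, Finset.mem_Ico.2 ⟨?_, hk⟩, rfl⟩
  rcases Nat.eq_zero_or_pos k with rfl | h
  · exact absurd (zero_nsmul K₀) (hC.ne_zero_of_mem_nz hK)
  · exact h

/-- **bridge** between the two indexings (sums). -/
theorem sum_Ico_eq {M : Type*} [AddCommMonoid M] (hC : IsLine P C) {K₀ : EPt P} (hK : K₀ ∈ nz C)
    (F : EPt P → M) : ∑ i ∈ Finset.Ico 1 P.p, F (i • K₀) = ∑ K ∈ nz C, F K :=
  Finset.sum_nbij (fun i => i • K₀) (fun _ hi => hC.nsmul_mem_nz hK hi) (hC.nsmul_injOn hK)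
    (fun K hK' => by
      obtain ⟨i, hi, rfl⟩ := hC.exists_Ico_nsmul_eq hK (Finset.mem_coe.1 hK')
      exact ⟨i, Finset.mem_coe.2 hi, rfl⟩)
    (fun _ _ => rfl)

/-- **bridge** between the two indexings (products). -/
theorem prod_Ico_eq {M : Type*} [CommMonoid M] (hC : IsLine P C) {K₀ : EPt P} (hK : K₀ ∈ nz C)
    (F : EPt P → M) : ∏ i ∈ Finset.Ico 1 P.p, F (i • K₀) = ∏ K ∈ nz C, F K :=
  Finset.prod_nbij (fun i => i • K₀) (fun _ hi => hC.nsmul_mem_nz hK hi) (hC.nsmul_injOn hK)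
    (fun K hK' => by
      obtain ⟨i, hi, rfl⟩ := hC.exists_Ico_nsmul_eq hK (Finset.mem_coe.1 hK')
      exact ⟨i, Finset.mem_coe.2 hi, rfl⟩)
    (fun _ _ => rfl)

/-- products over the whole line. -/
theorem prod_range_eq {M : Type*} [CommMonoid M] (hC : IsLine P C) {K₀ : EPt P} (hK : K₀ ∈ nz C)
    (F : EPt P → M) : ∏ i ∈ Finset.range P.p, F (i • K₀) = F 0 * ∏ K ∈ nz C, F K := by
  rw [Finset.range_eq_Ico, Finset.prod_eq_prod_Ico_succ_bot P.hppos, zero_nsmul, zero_add,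
    hC.prod_Ico_eq hK]

/-- translation by an element of the line permutes the line: invariance of sums over `C`. -/
theorem sum_range_add {M : Type*} [AddCommMonoid M] (hC : IsLine P C) {K₀ : EPt P}
    (hK : K₀ ∈ nz C) (F : EPt P → M) {K : EPt P} (hKC : K ∈ C) :
    ∑ i ∈ Finset.range P.p, F (K + i • K₀) = ∑ i ∈ Finset.range P.p, F (i • K₀) := by
  classical
  have hinj : Set.InjOn (fun i : ℕ => i • K₀) (Finset.range P.p : Finset ℕ) := by
    intro i hi j hj hij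
    have h := nsmul_injOn_Iio_addOrderOf (x := K₀)
    rw [hC.addOrderOf_eq hK] at h
    exact h (Finset.mem_range.1 (Finset.mem_coe.1 hi)) (Finset.mem_range.1 (Finset.mem_coe.1 hj)) hij
  have himg : ∀ T : EPt P, T ∈ (Finset.range P.p).image (fun i : ℕ => i • K₀) ↔ T ∈ C := by
    intro T
    rw [Finset.mem_image]
    constructor
    · rintro ⟨i, -, rfl⟩
      exact C.nsmul_mem (hC.mem_of_mem_nz hK) i
    · intro hT
      obtain ⟨k, hk, rfl⟩ := hC.exists_nsmul_eq hK hT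
      exact ⟨k, Finset.mem_range.2 hk, rfl⟩
  have e1 : ∑ i ∈ Finset.range P.p, F (K + i • K₀) =
      ∑ T ∈ (Finset.range P.p).image (fun i : ℕ => i • K₀), F (K + T) :=
    (Finset.sum_image (f := fun T => F (K + T)) hinj).symm
  have e2 : ∑ i ∈ Finset.range P.p, F (i • K₀) =
      ∑ T ∈ (Finset.range P.p).image (fun i : ℕ => i • K₀), F T :=
    (Finset.sum_image (f := fun T => F T) hinj).symm
  rw [e1, e2]
  refine Finset.sum_nbij' (fun T => K + T) (fun T => -K + T) ?_ ?_ ?_ ?_ ?_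
  · intro T hT
    rw [himg] at hT ⊢
    exact C.add_mem hKC hT
  · intro T hT
    rw [himg] at hT ⊢
    exact C.add_mem (C.neg_mem hKC) hT
  · intro T _
    simp
  · intro T _
    simp
  · intro T _
    rfl

end IsLine

end Fermat.Agent.S12
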