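import Fermat.Agent.S13.RatVal
import Fermat.Agent.S05.Inertia
import Fermat.Agent.Lib.Frobenius

/-!
# S12 ⇐ S15, block BK: rational numbers and the places of `ℚ̄`

* `exists_int_of_forall_val` (**BK3**): a rational number which is integral at one place above every
  prime is an integer;
* `sq_eq_sq_of_forall_val` (**BK4**): two rational numbers with the same valuation at one place
  above every prime are equal up to sign.
-/

set_option autoImplicit false

namespace Fermat.Agent.S12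

local notation "Qbar" => AlgebraicClosure ℚ

theorem algebraMap_rat_eq (q : ℚ) :
    algebraMap ℚ Qbar q = ((q.num : ℤ) : Qbar) / ((q.den : ℤ) : Qbar) := by
  conv_lhs => rw [← Rat.num_div_den q]
  simp

/-- **BK3.** -/
theorem exists_int_of_forall_val (q : ℚ)
    (h : ∀ ℓ : ℕ, ℓ.Prime → ∃ A : ValuationSubring Qbar, A.LiesOverPrime ℓ ∧
      A.valuation (algebraMap ℚ Qbar q) ≤ 1) : ∃ n : ℤ, (n : ℚ) = q := by
  have hden : q.den = 1 := by
    by_contra hne
    obtain ⟨ℓ, hℓ, hdvd⟩ := Nat.exists_prime_and_dvd hne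
    obtain ⟨A, hA, hv⟩ := h ℓ hℓ
    have h1 : A.valuation (((q.den : ℤ)) : Qbar) < 1 :=
      S05.valuation_intCast_lt_one A hA (by exact_mod_cast hdvd)
    have h2 : A.valuation ((q.num : ℤ) : Qbar) = 1 := by
      refine S05.valuation_intCast_eq_one A hℓ hA fun hn => ?_
      have h3 : ℓ ∣ q.num.natAbs := Int.natCast_dvd.1 hn
      have h4 := Nat.dvd_gcd h3 hdvd
      rw [q.reduced] at h4
      exact hℓ.one_lt.ne' (Nat.dvd_one.1 h4)
    have hden0 : A.valuation (((q.den : ℤ)) : Qbar) ≠ 0 := by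
      rw [Valuation.ne_zero_iff]
      exact_mod_cast q.den_ne_zero
    rw [algebraMap_rat_eq, map_div₀, h2, div_le_iff₀ (zero_lt_iff.2 hden0), one_mul] at hv
    exact absurd h1 (not_lt.2 hv)
  exact ⟨q.num, by rw [← Rat.den_eq_one_iff]; exact hden⟩

/-- the version with all places. -/
theorem exists_int_of_forall_val' (q : ℚ)
    (h : ∀ ℓ : ℕ, ℓ.Prime → ∀ A : ValuationSubring Qbar, A.LiesOverPrime ℓ →
      A.valuation (algebraMap ℚ Qbar q) ≤ 1) : ∃ n : ℤ, (n : ℚ) = q :=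
  exists_int_of_forall_val q fun ℓ hℓ => by
    obtain ⟨A, hA⟩ := Lib.Frobenius.exists_liesOverPrime ℓ hℓ
    exact ⟨A, hA, h ℓ hℓ A hA⟩

/-- **BK4.** -/
theorem sq_eq_sq_of_forall_val {q r : ℚ} (hr : r ≠ 0)
    (h : ∀ ℓ : ℕ, ℓ.Prime → ∃ A : ValuationSubring Qbar, A.LiesOverPrime ℓ ∧
      A.valuation (algebraMap ℚ Qbar q) = A.valuation (algebraMap ℚ Qbar r)) :
    q ^ 2 = r ^ 2 := by
  have hr' : algebraMap ℚ Qbar r ≠ 0 := (map_ne_zero _).2 hr
  have hq : q ≠ 0 := by
    rintro rfl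
    obtain ⟨A, -, hv⟩ := h 2 Nat.prime_two
    rw [map_zero, map_zero] at hv
    exact hr' ((map_eq_zero _).1 hv.symm)
  have hq' : algebraMap ℚ Qbar q ≠ 0 := (map_ne_zero _).2 hq
  obtain ⟨n, hn⟩ := exists_int_of_forall_val (q / r) fun ℓ hℓ => by
    obtain ⟨A, hA, hv⟩ := h ℓ hℓ
    refine ⟨A, hA, ?_⟩
    rw [map_div₀, map_div₀, hv, div_self ((map_ne_zero _).2 hr')]
  obtain ⟨m, hm⟩ := exists_int_of_forall_val (r / q) fun ℓ hℓ => by
    obtain ⟨A, hA, hv⟩ := h ℓ hℓ
    refine ⟨A, hA, ?_⟩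
    rw [map_div₀, map_div₀, hv, div_self ((map_ne_zero _).2 hr')]
  have hnm : n * m = 1 := by
    have : ((n * m : ℤ) : ℚ) = 1 := by
      push_cast
      rw [hn, hm]
      field_simp
    exact_mod_cast this
  have hn1 : n = 1 ∨ n = -1 := Int.isUnit_iff.1 (IsUnit.of_mul_eq_one _ hnm)
  have hqr : q = n * r := by
    rw [hn]
    field_simp
  rcases hn1 with rfl | rfl
  · rw [hqr]; push_cast; ring
  · rw [hqr]; push_cast; ring

end Fermat.Agent.S12
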