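import Fermat.Agent.S12.Line.Two
import Fermat.Agent.S12.H2.Transfer

/-!
# S12 ⇐ S15: the global relation attached to a subgroup of order `p` of the Frey curve

`g_i = ∏_{K ∈ C ∖ 0} (x_K - x(T_i))`.  Then `(a^p)^p g₃² + (b^p)^p g₂² = (c^p)^p g₁²`.
-/

set_option autoImplicit false

open WeierstrassCurve WeierstrassCurve.Affine WeierstrassCurve.Affine.Point

namespace Fermat.Agent.S12

open Fermat.Agent.S13 (EPt Vp GQ M0)
open Fermat.Agent.S05.XOnly (xc yc)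
open Fermat.Agent.Lib.Unif (veluX)

local notation "Qbar" => AlgebraicClosure ℚ

/-- an embedding of `ℚ̄` into `ℂ`. -/
noncomputable def embC : Qbar →+* ℂ :=
  letI inst : Algebra ℚ (AlgebraicClosure ℚ) := AlgebraicClosure.instAlgebra ℚ
  haveI : @Algebra.IsAlgebraic ℚ (AlgebraicClosure ℚ) _ _ inst := AlgebraicClosure.isAlgebraic ℚ
  ((IsAlgClosed.lift : AlgebraicClosure ℚ →ₐ[ℚ] ℂ) : AlgebraicClosure ℚ →+* ℂ)

/-- `g(T) = ∏_{K ∈ C ∖ 0} (x_K - x_T)`. -/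
noncomputable def gC {P : FreyPackage} (C : AddSubgroup (EPt P)) (T : EPt P) : Qbar :=
  ∏ K ∈ nz C, (xc K - xc T)

namespace IsLine

variable {P : FreyPackage} {C : AddSubgroup (EPt P)}

theorem gprod_eq (hC : IsLine P C) {K₀ : EPt P} (hK : K₀ ∈ nz C) (T : EPt P) :
    H2.gprod K₀ P.p T = gC C T :=
  hC.prod_Ico_eq hK (fun K => xc K - xc T)

/-- **(H2)** for the Frey curve. -/
theorem pair (hC : IsLine P C) {K₀ : EPt P} (hK : K₀ ∈ nz C) {T T' : EPt P} (hT0 : T ≠ 0)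
    (hT : 2 • T = 0) (hT0' : T' ≠ 0) (hT' : 2 • T' = 0) (hne : T ≠ T') :
    gC C T * gC C T' * (veluX (P.freyCurve⁄Qbar) K₀ P.p T - veluX (P.freyCurve⁄Qbar) K₀ P.p T') =
      (xc T - xc T') ^ P.p * gC C (T + T') := by
  have h := H2.pair_of_embedding embC (S13.frey_Δ_ne_zero P) P.pp P.hp_odd
    (hC.ne_zero_of_mem_nz hK) (hC.tors K₀ (hC.mem_of_mem_nz hK)) hT0 hT hT0' hT' hne
  rwa [hC.gprod_eq hK, hC.gprod_eq hK, hC.gprod_eq hK] at h

/-- **(IV)** for the Frey curve. -/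
theorem mulVelu (hC : IsLine P C) {K₀ : EPt P} (hK : K₀ ∈ nz C) {T : EPt P} (hT0 : T ≠ 0)
    (hT : 2 • T = 0) {R : EPt P} (hR : R ∉ C) :
    (xc R - xc T) * ∏ K ∈ nz C, (xc (R + K) - xc T) =
      gC C T * (veluX (P.freyCurve⁄Qbar) K₀ P.p R - veluX (P.freyCurve⁄Qbar) K₀ P.p T) := by
  have h := H2.mulVelu_of_embedding embC (S13.frey_Δ_ne_zero P) P.pp P.hp_odd
    (hC.ne_zero_of_mem_nz hK) (hC.tors K₀ (hC.mem_of_mem_nz hK)) hT0 hT
    (R := R) (by rw [hC.zmultiples_eq hK]; exact hR)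
  rw [hC.gprod_eq hK, hC.prod_range_eq hK (fun K => xc (R + K) - xc T), add_zero] at h
  exact h

/-- **the global relation.** -/
theorem relation (hC : IsLine P C) :
    cA P ^ P.p * gC C (T3 P) ^ 2 + cB P ^ P.p * gC C (T2 P) ^ 2 =
      cC P ^ P.p * gC C (T1 P) ^ 2 := by
  obtain ⟨K₀, hK⟩ := hC.exists_mem_nz
  have h12 := hC.pair hK (T1_ne_zero P) (two_nsmul_T1 P) (T2_ne_zero P) (two_nsmul_T2 P)
    (T1_ne_T2 P)
  have h23 := hC.pair hK (T2_ne_zero P) (two_nsmul_T2 P) (T3_ne_zero P) (two_nsmul_T3 P)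
    (T2_ne_T3 P)
  have h31 := hC.pair hK (T3_ne_zero P) (two_nsmul_T3 P) (T1_ne_zero P) (two_nsmul_T1 P)
    (T1_ne_T3 P).symm
  rw [T1_add_T2, xc_T1, xc_T2] at h12
  rw [T2_add_T3, xc_T2, xc_T3] at h23
  rw [add_comm, T1_add_T3, xc_T3, xc_T1] at h31
  have e12 : (0 - cA P / 4) ^ P.p = -(cA P ^ P.p / 4 ^ P.p) := by
    rw [zero_sub, P.hp_odd.neg_pow, div_pow]
  have e23 : (cA P / 4 - -cB P / 4) ^ P.p = cC P ^ P.p / 4 ^ P.p := by
    rw [← cA_add_cB, ← div_pow]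
    congr 1
    ring
  have e31 : (-cB P / 4 - 0) ^ P.p = -(cB P ^ P.p / 4 ^ P.p) := by
    rw [sub_zero, neg_div, P.hp_odd.neg_pow, div_pow]
  rw [e12] at h12
  rw [e23] at h23
  rw [e31] at h31
  have h4 : (4 : Qbar) ^ P.p ≠ 0 := pow_ne_zero _ (by norm_num)
  have key : (cA P ^ P.p * gC C (T3 P) ^ 2 + cB P ^ P.p * gC C (T2 P) ^ 2 -
      cC P ^ P.p * gC C (T1 P) ^ 2) / 4 ^ P.p = 0 := by
    linear_combination gC C (T3 P) * h12 + gC C (T1 P) * h23 + gC C (T2 P) * h31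
  rw [div_eq_zero_iff] at key
  rcases key with key | key
  · linear_combination key
  · exact absurd key h4

end IsLine

end Fermat.Agent.S12
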